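import Fermat.Agent.S41.Contracts
import Fermat.Agent.S41.Input.Contract
import Fermat.Agent.DR.Conc.Multi

/-!
# S41 / Ihara : the contracts of the geometric route to `IharaC` (report 382, two-prime trick)

`V(M) = KV Kbar (FN M) p`, `a_ℓ = DR.Hecke.aPull M ℓ p`, `b_ℓ = DR.Hecke.bPull M ℓ p : V(M) → V(M ℓ)`.

* `FrobRelC` (block GOOD, first half) : at a neat level `M`, `ℓ ∤ M p`: `a_ℓ x + b_ℓ y = 0` implies `φ x + ℓ y = 0` and `ℓ x + φ y = 0`
  for every Frobenius element `φ` at `ℓ`.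
* `Toric A M r p t` : `t ∈ V(M r)` is represented by a function whose reductions at `R1` and `R2` are `1`.
* `ToricC` (block GOOD, second half) : `φ x = x`, `r ≡ -1 (p)` imply that `a_r x + b_r x` is toric.
* `CoreC` (blocks TORIC, NODES, CC, GRAPH, TORS) : a toric class `t` of level `M r` with `a_{q'} t = ± b_{q'} t` vanishes.

`Ihara/Main.lean` : `iharaC_of : BLRStatement → AuxStatement → FrobRelC → ToricC → CoreC → IharaC`.
-/

set_option autoImplicit false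

noncomputable section

namespace Fermat.Agent.S41

open AlgebraicCurve ModularCurve Fermat.Agent.S24 Fermat.Agent.GAL Fermat.Agent.GAL.Hecke

/-- block GOOD, first half: the reduction of `ker (α^* + β^*)` on the two components. -/
def FrobRelC : Prop :=
  ∀ (p M ℓ : ℕ) [NeZero M] [NeZero ℓ], p.Prime → (4 ∣ M ∨ 9 ∣ M) → ℓ.Prime → ¬ ℓ ∣ M → ℓ ≠ p →
    ∀ x y : KV Kbar (FN M) p, DR.Hecke.aPull M ℓ p x + DR.Hecke.bPull M ℓ p y = 0 →
      ∀ (A : ValuationSubring (AlgebraicClosure ℚ)) (φ : GQ), A.LiesOverPrime ℓ →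
        A.IsFrobeniusAt φ ℓ → φ • x + ℓ • y = 0 ∧ ℓ • x + φ • y = 0

/-- `t` is toric at `A ∣ r`. -/
def Toric (A : ValuationSubring Kbar) (M r p : ℕ) [NeZero M] [NeZero r] (hr : r.Prime)
    (hrM : ¬ r ∣ M) (hA : A.LiesOverPrime r) (t : KV Kbar (FN (M * r)) p) : Prop :=
  ∃ f : kummerUnits Kbar (FN (M * r)) p, KV.mk f = t ∧
    (DR.Conc.TT A M r hr hrM hA).red ((f : (FN (M * r))ˣ) : FN (M * r)) = 1

/-- block GOOD, second half. -/
def ToricC : Prop :=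
  ∀ (p M r : ℕ) [NeZero M] [NeZero r], p.Prime → (4 ∣ M ∨ 9 ∣ M) → ∀ (hr : r.Prime) (hrM : ¬ r ∣ M),
    r ≠ p → (p : ℤ) ∣ r + 1 →
    ∀ (A : ValuationSubring (AlgebraicClosure ℚ)) (φ : GQ) (hA : A.LiesOverPrime r),
      A.IsFrobeniusAt φ r → ∀ x : KV Kbar (FN M) p, φ • x = x →
        Toric A M r p hr hrM hA (DR.Hecke.aPull M r p x + DR.Hecke.bPull M r p x)

/-- the geometric core (blocks TORIC, NODES, CC, GRAPH, TORS). -/
def CoreC : Prop :=
  ∀ (p M q' r : ℕ) [NeZero M] [NeZero q'] [NeZero r], p.Prime → p ≠ 2 → (4 ∣ M ∨ 9 ∣ M) →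
    q'.Prime → ¬ q' ∣ M → q' ≠ p → ∀ (hr : r.Prime) (hrM : ¬ r ∣ M), r ≠ p → r ≠ q' →
    ∀ (A : ValuationSubring (AlgebraicClosure ℚ)) (hA : A.LiesOverPrime r)
      (t : KV Kbar (FN (M * r)) p), Toric A M r p hr hrM hA t →
      ∀ e : ℤ, (e = 1 ∨ e = -1) →
        DR.Hecke.aPull (M * r) q' p t = e • DR.Hecke.bPull (M * r) q' p t → t = 0

end Fermat.Agent.S41
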