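import Fermat.Agent.S41.Ihara.Contracts
import Fermat.Agent.DR.Gal.Level

/-!
# S41 / Ihara / Comm : the four degeneracy maps commute

`comm_rel` : if `a_{q} x = e b_{q} x` in `V(M q)` then `t = a_r x + b_r x ∈ V(M r)` satisfies `a_{q} t = e b_{q} t` in `V(M r q)`.
-/

set_option autoImplicit false

noncomputable section

namespace Fermat.Agent.S41

open AlgebraicCurve ModularCurve Fermat.Agent.S24 Fermat.Agent.GAL Fermat.Agent.GAL.Hecke
  Fermat.Agent.DR.Gal Fermat.Agent.DR.Hecke

variable (M q r m : ℕ) [NeZero M] [NeZero q] [NeZero r]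

theorem swap_dvd : M * q * r ∣ M * r * q := by
  rw [mul_right_comm]

/-- the identification `V(M q r) = V(M r q)`. -/
def sw : KV Kbar (FN (M * q * r)) m →+ KV Kbar (FN (M * r * q)) m := lvlKV (swap_dvd M q r) m

theorem aa (x : KV Kbar (FN M) m) :
    aPull (M * r) q m (aPull M r m x) = sw M q r m (aPull (M * q) r m (aPull M q m x)) := by
  obtain ⟨u, rfl⟩ := KV.mk_surjective x
  rw [sw, aPull_mk, aPull_mk, aPull_mk, aPull_mk, lvlKV_mk]
  refine congrArg KV.mk (Subtype.ext (Units.ext (Subtype.ext ?_)))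
  simp [coe_aUnits, coe_lvl]

theorem ab (x : KV Kbar (FN M) m) :
    aPull (M * r) q m (bPull M r m x) = sw M q r m (bPull (M * q) r m (aPull M q m x)) := by
  obtain ⟨u, rfl⟩ := KV.mk_surjective x
  rw [sw, bPull_mk, aPull_mk, aPull_mk, bPull_mk, lvlKV_mk]
  refine congrArg KV.mk (Subtype.ext (Units.ext (Subtype.ext ?_)))
  simp [coe_aUnits, coe_bUnits, coe_lvl]

theorem ba (x : KV Kbar (FN M) m) :
    bPull (M * r) q m (aPull M r m x) = sw M q r m (aPull (M * q) r m (bPull M q m x)) := by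
  obtain ⟨u, rfl⟩ := KV.mk_surjective x
  rw [sw, aPull_mk, bPull_mk, bPull_mk, aPull_mk, lvlKV_mk]
  refine congrArg KV.mk (Subtype.ext (Units.ext (Subtype.ext ?_)))
  simp [coe_aUnits, coe_bUnits, coe_lvl]

theorem bb (x : KV Kbar (FN M) m) :
    bPull (M * r) q m (bPull M r m x) = sw M q r m (bPull (M * q) r m (bPull M q m x)) := by
  obtain ⟨u, rfl⟩ := KV.mk_surjective x
  rw [sw, bPull_mk, bPull_mk, bPull_mk, bPull_mk, lvlKV_mk]
  refine congrArg KV.mk (Subtype.ext (Units.ext (Subtype.ext ?_)))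
  simp [coe_bUnits, coe_lvl, qExpand_qExpand, mul_comm]

/-- **Step 3.** -/
theorem comm_rel (x : KV Kbar (FN M) m) (e : ℤ) (h : aPull M q m x = e • bPull M q m x) :
    aPull (M * r) q m (aPull M r m x + bPull M r m x) =
      e • bPull (M * r) q m (aPull M r m x + bPull M r m x) := by
  rw [map_add, map_add, aa M q r m x, ab M q r m x, ba M q r m x, bb M q r m x, h, map_zsmul,
    map_zsmul, map_zsmul, map_zsmul, smul_add]

end Fermat.Agent.S41
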