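import Fermat.Agent.S41.Ihara.Comm
import Fermat.Agent.S41.Neat.Contract
import Fermat.Agent.MR.Glue.Front
import Fermat.Agent.Lib.Frobenius

/-!
# S41 / Ihara / Main : assembly of Ihara's lemma (geometric route)

`iharaC_of : BLRStatement → AuxStatement → FrobRelC → ToricC → CoreC → IharaC`.
-/

set_option autoImplicit false

noncomputable section

namespace Fermat.Agent.S41

open AlgebraicCurve ModularCurve Fermat.Agent.S24 Fermat.Agent.GAL Fermat.Agent.GAL.Hecke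
  Fermat.Agent.DR.Gal Fermat.Agent.DR.Hecke Fermat.Agent.S41.Input Fermat.Agent.MR.Glue
open WeierstrassCurve.Affine.Point (GaloisRepIsIrreducible)

section Tors

variable {X : Type*} [AddCommGroup X] {p : ℕ}

theorem dvd_of_zsmul_eq_zero (hp : p.Prime) {x : X} (hpx : p • x = 0) (hx : x ≠ 0) {n : ℤ}
    (h : n • x = 0) : (p : ℤ) ∣ n := by
  by_contra hn
  have hcop : IsCoprime (p : ℤ) n := (Nat.prime_iff_prime_int.mp hp).coprime_iff_not_dvd.mpr hn
  obtain ⟨a, b, hab⟩ := hcop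
  apply hx
  have h1 : (a * p + b * n) • x = x := by rw [hab, one_smul]
  rw [← h1, add_smul, mul_smul, mul_smul, h, natCast_zsmul, hpx, smul_zero, smul_zero, add_zero]

theorem zsmul_eq_of_dvd_sub {x : X} (hpx : p • x = 0) {m n : ℤ} (h : (p : ℤ) ∣ m - n) :
    m • x = n • x := by
  obtain ⟨c, hc⟩ := h
  have h1 : m = n + c * p := by linarith [hc, mul_comm (p : ℤ) c]
  rw [h1, add_smul, mul_smul, natCast_zsmul, hpx, smul_zero, add_zero]

theorem not_dvd_two (hp : p.Prime) (hp2 : p ≠ 2) : ¬ (p : ℤ) ∣ 2 := by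
  intro h
  have h1 : p ∣ 2 := by exact_mod_cast h
  exact hp2 ((Nat.prime_dvd_prime_iff_eq hp Nat.prime_two).1 h1)

end Tors

theorem Good.not_cyclic {p : ℕ} {X : Type*} [AddCommGroup X] [DistribMulAction GQ X]
    {U : AddSubgroup X} (hG : Good p U) (hp : p.Prime) (hp2 : p ≠ 2) (c : GQ) (hc : IsConj c) (z : X) :
    U ≠ AddSubgroup.zmultiples z := by
  intro hz
  obtain ⟨⟨x₁, hx₁U, hx₁0, hcx₁⟩, ⟨x₂, hx₂U, hx₂0, hcx₂⟩⟩ := hG.conj c hc
  have hzU : z ∈ U := by rw [hz]; exact AddSubgroup.mem_zmultiples z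
  have hcz : c • z ∈ AddSubgroup.zmultiples z := by rw [← hz]; exact hG.stable c z hzU
  obtain ⟨s, hs⟩ := AddSubgroup.mem_zmultiples_iff.1 hcz
  have key : ∀ x ∈ U, c • x = s • x := by
    intro x hx
    rw [hz] at hx
    obtain ⟨a, rfl⟩ := AddSubgroup.mem_zmultiples_iff.1 hx
    rw [smul_comm c a z, ← hs, smul_comm]
  have h1 : (s - 1) • x₁ = 0 := by
    rw [sub_smul, one_smul, ← key x₁ hx₁U, hcx₁, sub_self]
  have h2 : (s + 1) • x₂ = 0 := by
    rw [add_smul, one_smul, ← key x₂ hx₂U, hcx₂, neg_add_cancel]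
  have d1 := dvd_of_zsmul_eq_zero hp (hG.tors x₁ hx₁U) hx₁0 h1
  have d2 := dvd_of_zsmul_eq_zero hp (hG.tors x₂ hx₂U) hx₂0 h2
  apply not_dvd_two hp hp2
  have := dvd_sub d2 d1
  have e : s + 1 - (s - 1) = 2 := by ring
  rwa [e] at this

/-- the first projection of `ker (α^* + β^*)` on the eigenspace. -/
def kerX (M q' p : ℕ) [NeZero M] [NeZero q'] (S : Finset ℕ) (a : ℕ → ℤ) :
    AddSubgroup (KV Kbar (FN M) p) where
  carrier := {x | x ∈ eigenKV M p S a ∧ ∃ y ∈ eigenKV M p S a, aPull M q' p x + bPull M q' p y = 0}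
  add_mem' := by
    rintro x x' ⟨hx, y, hy, h⟩ ⟨hx', y', hy', h'⟩
    refine ⟨add_mem hx hx', y + y', add_mem hy hy', ?_⟩
    rw [map_add, map_add, add_add_add_comm, h, h', add_zero]
  zero_mem' := ⟨zero_mem _, 0, zero_mem _, by rw [map_zero, map_zero, add_zero]⟩
  neg_mem' := by
    rintro x ⟨hx, y, hy, h⟩
    refine ⟨neg_mem hx, -y, neg_mem hy, ?_⟩
    rw [map_neg, map_neg, ← neg_add, h, neg_zero]

theorem kerX_stable (M q' p : ℕ) [NeZero M] [NeZero q'] (S : Finset ℕ) (a : ℕ → ℤ) :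
    Stable (kerX M q' p S a) := by
  rintro σ x ⟨hx, y, hy, h⟩
  refine ⟨eigenKV_galois S a σ x hx, σ • y, eigenKV_galois S a σ y hy, ?_⟩
  rw [aPull_smul, bPull_smul, ← smul_add, h, smul_zero]

/-- **Ihara's lemma at a neat level.** -/
theorem ihara_neat (hBLR : BLRStatement) (hAux : AuxStatement) (hF : FrobRelC) (hT : ToricC)
    (hC : CoreC) (E : WeierstrassCurve ℚ) [E.IsElliptic] (W : WeierstrassCurve ℤ)
    (hW : W.IsIntegralModelOf E) (p M q' : ℕ) [NeZero M] [NeZero q'] (hp : p.Prime) (hp2 : p ≠ 2)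
    (hneat : 4 ∣ M ∨ 9 ∣ M) (hq' : q'.Prime) (hq'M : ¬ q' ∣ M) (hq'p : q' ≠ p)
    (hirr : GaloisRepIsIrreducible (K := AlgebraicClosure ℚ) ℚ E p) (S : Finset ℕ)
    (x y : KV Kbar (FN M) p) (hx : x ∈ eigenKV M p S W.apOfModel)
    (hy : y ∈ eigenKV M p S W.apOfModel) (hxy : aPull M q' p x + bPull M q' p y = 0) :
    x = 0 ∧ y = 0 := by
  obtain ⟨A₀, hA₀⟩ : ∃ A : ValuationSubring (AlgebraicClosure ℚ), A.LiesOverPrime q' :=
    Lib.Frobenius.exists_liesOverPrime _ hq'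
  have hgal : IsGalois ℚ (AlgebraicClosure ℚ) := Lib.Frobenius.isGalois_algebraicClosure _
  obtain ⟨φ₀, hφ₀⟩ := Lib.Frobenius.exists_isFrobeniusAt A₀ hq' hA₀
  have hpq : ¬ (p : ℤ) ∣ q' := by
    intro h
    have h1 : p ∣ q' := by exact_mod_cast h
    exact hq'p ((Nat.prime_dvd_prime_iff_eq hp hq').1 h1).symm
  -- it suffices to show that `kerX` is trivial
  suffices hbot : kerX M q' p S W.apOfModel = ⊥ by
    have hx0 : x = 0 := by
      have : x ∈ kerX M q' p S W.apOfModel := ⟨hx, y, hy, hxy⟩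
      rw [hbot] at this
      exact (AddSubgroup.mem_bot).1 this
    refine ⟨hx0, ?_⟩
    have h1 := (hF p M q' hp hneat hq' hq'M hq'p x y hxy A₀ φ₀ hA₀ hφ₀).1
    rw [hx0, smul_zero, zero_add] at h1
    by_contra hy0
    have h2 : ((q' : ℕ) : ℤ) • y = 0 := by rw [natCast_zsmul]; exact h1
    exact hpq (dvd_of_zsmul_eq_zero hp (KV.nsmul_eq_zero y) hy0 h2)
  by_contra hne
  obtain ⟨U, hUX, hG⟩ := hBLR E W hW hp hp2 hirr M S (kerX M q' p S W.apOfModel) hne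
    (fun x hx => hx.1) (kerX_stable M q' p S W.apOfModel)
  -- the Frobenius at `q'` commutes with Galois on `U`
  have hrel : ∀ x ∈ U, ∃ y : KV Kbar (FN M) p, aPull M q' p x + bPull M q' p y = 0 ∧
      φ₀ • x + q' • y = 0 ∧ q' • x + φ₀ • y = 0 := by
    intro x hx
    obtain ⟨-, y, -, h⟩ := hUX hx
    exact ⟨y, h, hF p M q' hp hneat hq' hq'M hq'p x y h A₀ φ₀ hA₀ hφ₀⟩
  have hcomm : ∀ (σ : GQ), ∀ x ∈ U, φ₀ • σ • x = σ • φ₀ • x := by
    intro σ x hx
    obtain ⟨y, h, h1, -⟩ := hrel x hx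
    have h' : aPull M q' p (σ • x) + bPull M q' p (σ • y) = 0 := by
      rw [aPull_smul, bPull_smul, ← smul_add, h, smul_zero]
    have h2 := (hF p M q' hp hneat hq' hq'M hq'p _ _ h' A₀ φ₀ hA₀ hφ₀).1
    have h3 : σ • φ₀ • x + q' • σ • y = 0 := by
      rw [smul_comm q' σ y, ← smul_add, h1, smul_zero]
    exact add_right_cancel (h2.trans h3.symm)
  obtain ⟨s, hs⟩ := hG.schur
    { toFun := fun x => φ₀ • (x : KV Kbar (FN M) p)
      map_zero' := by simp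
      map_add' := fun x y => by simp [smul_add] }
    (fun x => hG.stable φ₀ x x.2)
    (fun σ x y hyx => by
      show φ₀ • (y : KV Kbar (FN M) p) = σ • φ₀ • (x : KV Kbar (FN M) p)
      rw [hyx]
      exact hcomm σ x x.2)
  have hs' : ∀ x ∈ U, φ₀ • x = s • x := fun x hx => hs ⟨x, hx⟩
  have hdet : (p : ℤ) ∣ s ^ 2 - q' := hG.det q' A₀ φ₀ s hq' hq'p hA₀ hφ₀ hs'
  obtain ⟨x₁, hx₁U, hx₁0⟩ : ∃ x ∈ U, x ≠ 0 := by
    by_contra hcon
    push Not at hcon
    exact hG.ne_bot ((AddSubgroup.eq_bot_iff_forall U).2 hcon)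
  -- `s² = q'²`
  have hsq : (p : ℤ) ∣ (q' : ℤ) ^ 2 - s ^ 2 := by
    obtain ⟨y, -, h1, h2⟩ := hrel x₁ hx₁U
    apply dvd_of_zsmul_eq_zero hp (hG.tors x₁ hx₁U) hx₁0
    have e1 : (q' : ℤ) • y = -(s • x₁) := by
      rw [natCast_zsmul, ← hs' x₁ hx₁U]
      exact eq_neg_of_add_eq_zero_right h1
    have e2 : (q' : ℤ) • ((q' : ℤ) • x₁ + φ₀ • y) = 0 := by
      rw [natCast_zsmul, natCast_zsmul, h2, smul_zero]
    rw [smul_add, smul_comm (q' : ℤ) φ₀ y, e1, smul_neg, smul_comm φ₀ s x₁, hs' x₁ hx₁U] at e2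
    rw [sub_smul, pow_two, pow_two, mul_smul, mul_smul, sub_eq_add_neg]
    exact e2
  have hq1 : (p : ℤ) ∣ (q' : ℤ) - 1 := by
    have h1 : (p : ℤ) ∣ (q' : ℤ) * ((q' : ℤ) - 1) := by
      have := dvd_add hsq hdet
      have e : (q' : ℤ) ^ 2 - s ^ 2 + (s ^ 2 - q') = (q' : ℤ) * ((q' : ℤ) - 1) := by ring
      rwa [e] at this
    exact ((Nat.prime_iff_prime_int.mp hp).dvd_or_dvd h1).resolve_left hpq
  obtain ⟨e, he, hse⟩ : ∃ e : ℤ, (e = 1 ∨ e = -1) ∧ (p : ℤ) ∣ s - e := by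
    have h1 : (p : ℤ) ∣ (s - 1) * (s + 1) := by
      have := dvd_add hdet hq1
      have e : s ^ 2 - (q' : ℤ) + ((q' : ℤ) - 1) = (s - 1) * (s + 1) := by ring
      rwa [e] at this
    rcases (Nat.prime_iff_prime_int.mp hp).dvd_or_dvd h1 with h | h
    · exact ⟨1, Or.inl rfl, h⟩
    · exact ⟨-1, Or.inr rfl, by rwa [sub_neg_eq_add]⟩
  -- the bad case
  have hbad : ∀ x ∈ U, aPull M q' p x = e • bPull M q' p x := by
    intro x hx
    obtain ⟨y, h, h1, -⟩ := hrel x hx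
    have e1 : y = -(e • x) := by
      have e2 : (q' : ℤ) • y = (1 : ℤ) • y := zsmul_eq_of_dvd_sub (KV.nsmul_eq_zero y) hq1
      have e3 : s • x = e • x := zsmul_eq_of_dvd_sub (KV.nsmul_eq_zero x) hse
      rw [hs' x hx, e3, ← natCast_zsmul, e2, one_smul] at h1
      exact eq_neg_of_add_eq_zero_right h1
    rw [e1, map_neg, map_zsmul] at h
    exact eq_of_sub_eq_zero (by rw [sub_eq_add_neg]; exact h)
  -- the auxiliary prime
  obtain ⟨c, r, A, φ, hc, hr, hrB, hA, hφ, hr1, hφc⟩ :=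
    hAux hp M (insert p (insert q' M.primeFactors))
  have hrp : r ≠ p := fun h => hrB (by rw [h]; exact Finset.mem_insert_self _ _)
  have hrq : r ≠ q' := fun h => hrB (by
    rw [h]; exact Finset.mem_insert_of_mem (Finset.mem_insert_self _ _))
  have hrM : ¬ r ∣ M := fun h => hrB (Finset.mem_insert_of_mem (Finset.mem_insert_of_mem
    (Nat.mem_primeFactors.2 ⟨hr, h, NeZero.ne M⟩)))
  have : NeZero r := ⟨hr.ne_zero⟩
  obtain ⟨⟨xp, hxpU, hxp0, hcxp⟩, ⟨xm, hxmU, hxm0, hcxm⟩⟩ := hG.conj c hc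
  have hφp : φ • xp = xp := by rw [hφc, hcxp]
  have hφm : φ • xm = -xm := by rw [hφc, hcxm]
  have htor := hT p M r hp hneat hr hrM hrp hr1 A φ hA hφ xp hφp
  have ht0 := hC p M q' r hp hp2 hneat hq' hq'M hq'p hr hrM hrp hrq A hA _ htor e he
    (comm_rel M q' r p xp e (hbad xp hxpU))
  -- the stable subgroup of `U` killed by `a_r + b_r`
  let U₀ : AddSubgroup (KV Kbar (FN M) p) :=
    { carrier := {x | x ∈ U ∧ aPull M r p x + bPull M r p x = 0}
      add_mem' := by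
        rintro x x' ⟨hx, h⟩ ⟨hx', h'⟩
        refine ⟨add_mem hx hx', ?_⟩
        rw [map_add, map_add, add_add_add_comm, h, h', add_zero]
      zero_mem' := ⟨zero_mem _, by rw [map_zero, map_zero, add_zero]⟩
      neg_mem' := by
        rintro x ⟨hx, h⟩
        refine ⟨neg_mem hx, ?_⟩
        rw [map_neg, map_neg, ← neg_add, h, neg_zero] }
  have hU₀ : U₀ = ⊥ ∨ U₀ = U := hG.irr U₀ (fun x hx => hx.1) (by
    rintro σ x ⟨hx, h⟩
    refine ⟨hG.stable σ x hx, ?_⟩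
    rw [aPull_smul, bPull_smul, ← smul_add, h, smul_zero])
  have hU₀' : U₀ = U := by
    refine hU₀.resolve_left (fun hb => hxp0 ?_)
    have : xp ∈ U₀ := ⟨hxpU, ht0⟩
    rw [hb] at this
    exact (AddSubgroup.mem_bot).1 this
  have hxm : xm ∈ U₀ := by rw [hU₀']; exact hxmU
  have h1 := (hF p M r hp hneat hr hrM hrp xm xm hxm.2 A φ hA hφ).1
  rw [hφm] at h1
  have h2 : ((r : ℤ) - 1) • xm = 0 := by
    rw [sub_smul, one_smul, natCast_zsmul, sub_eq_add_neg, add_comm]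
    exact h1
  have d1 := dvd_of_zsmul_eq_zero hp (KV.nsmul_eq_zero xm) hxm0 h2
  apply not_dvd_two hp hp2
  have := dvd_sub hr1 d1
  have e' : (r : ℤ) + 1 - ((r : ℤ) - 1) = 2 := by ring
  rwa [e'] at this

theorem delta_ne_zero (E : WeierstrassCurve ℚ) [E.IsElliptic] (W : WeierstrassCurve ℤ)
    (hW : W.IsIntegralModelOf E) : W.Δ ≠ 0 := by
  obtain ⟨C, hC⟩ := hW
  intro h0
  have h1 : (C • E).Δ = 0 := by rw [hC, WeierstrassCurve.map_Δ, h0]; simp
  have h2 : IsUnit (C • E).Δ := (WeierstrassCurve.isElliptic_iff _).1 inferInstance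
  rw [h1] at h2
  exact not_isUnit_zero h2

theorem mem_eigenKV_of_mem_Eig (W : WeierstrassCurve ℤ) (hΔ : W.Δ ≠ 0) (p N L : ℕ) [NeZero N]
    (hL : L ≠ 0) (S : Finset ℕ) (hS : badSet W p ∪ L.primeFactors ⊆ S) (z : KV Kbar (FN N) p)
    (hz : z ∈ Eig W N L p) : z ∈ eigenKV N p S W.apOfModel := by
  intro ℓ _ hℓ _ hℓS
  have hℓS' : ℓ ∉ badSet W p ∪ L.primeFactors := fun h => hℓS (hS h)
  rw [Finset.mem_union, badSet, Finset.mem_insert] at hℓS'
  push Not at hℓS'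
  obtain ⟨⟨h1, h2⟩, h3⟩ := hℓS'
  have hPr : Pr W L p ℓ := by
    refine ⟨hℓ, ?_, ?_, h1⟩
    · intro hd
      exact h2 (Nat.mem_primeFactors.2 ⟨hℓ, Int.natCast_dvd.1 hd, Int.natAbs_ne_zero.2 hΔ⟩)
    · intro hd
      exact h3 (Nat.mem_primeFactors.2 ⟨hℓ, hd, hL⟩)
  have := hz ℓ hPr
  rwa [heckeTtot_eq] at this

/-- **Ihara's lemma (geometric route).** -/
theorem iharaC_of (hBLR : BLRStatement) (hAux : AuxStatement) (hF : FrobRelC) (hT : ToricC)
    (hC : CoreC) : IharaC := by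
  intro E _ W hW p N q' _ _ hp hp2 hq' hq'N hq'p hirr x hx y hy hxy
  obtain ⟨N', hN', h, hneat, hq'N', hinj⟩ := Neat.neat (N := N) hq' hq'N hp hp2
  have hΔ := delta_ne_zero E W hW
  let S : Finset ℕ := badSet W p ∪ (N * q').primeFactors
  have hsub : ∀ z ∈ Eig W N (N * q') p, z ∈ eigenKV N p S W.apOfModel := fun z hz =>
    mem_eigenKV_of_mem_Eig W hΔ p N (N * q') (NeZero.ne _) S subset_rfl z hz
  have hup : ∀ z ∈ eigenKV N p S W.apOfModel, lvlKV h p z ∈ eigenKV N' p S W.apOfModel := by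
    intro z hz ℓ _ hℓ hℓN' hℓS
    rw [← MR.Glue.lvlKV_heckeT h hℓ hℓN' p z, hz ℓ hℓ (fun hd => hℓN' (hd.trans h)) hℓS, map_zsmul]
  have hrel : aPull N' q' p (lvlKV h p x) + bPull N' q' p (lvlKV h p y) = 0 := by
    have e1 := Neat.lvlKV_pull_alpha h q' p (integral_alpha N q') (integral_alpha N' q') x
    have e2 := Neat.lvlKV_pull_beta h q' p (integral_beta N q') (integral_beta N' q') y
    have e3 : lvlKV (Nat.mul_dvd_mul_right h q') p (aPull N q' p x + bPull N q' p y) = 0 := by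
      rw [hxy, map_zero]
    rw [map_add] at e3
    exact (congrArg₂ (· + ·) e1.symm e2.symm).trans e3
  obtain ⟨h1, h2⟩ := ihara_neat hBLR hAux hF hT hC E W hW p N' q' hp hp2 hneat hq' hq'N' hq'p hirr S
    _ _ (hup x (hsub x hx)) (hup y (hsub y hy)) hrel
  -- the kernel of the pull-back meets the eigenspace trivially
  have hU : (lvlKV h p).ker ⊓ eigenKV N p S W.apOfModel = ⊥ := by
    by_contra hne
    obtain ⟨U', hU'U, hG⟩ := hBLR E W hW hp hp2 hirr N S _ hne inf_le_right (by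
      rintro σ z ⟨hz1, hz2⟩
      refine ⟨?_, eigenKV_galois S _ σ z hz2⟩
      have hz1' : lvlKV h p z = 0 := hz1
      show lvlKV h p (σ • z) = 0
      rw [lvlKV_galois, hz1', smul_zero])
    obtain ⟨c, -, -, -, hc, -⟩ := hAux hp N ∅
    have h3 := hinj U' hG.stable hG.irr (Good.not_cyclic hG hp hp2 c hc)
    exact hG.ne_bot ((AddSubgroup.eq_bot_iff_forall U').2 fun z hz => h3 z hz (hU'U hz).1)
  have hz0 : ∀ z ∈ Eig W N (N * q') p, lvlKV h p z = 0 → z = 0 := by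
    intro z hz hz0
    have : z ∈ (lvlKV h p).ker ⊓ eigenKV N p S W.apOfModel := ⟨hz0, hsub z hz⟩
    rw [hU] at this
    exact (AddSubgroup.mem_bot).1 this
  exact ⟨hz0 x hx h1, hz0 y hy h2⟩

end Fermat.Agent.S41
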